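import Fermat.Agent.LT.T7.H563.ProdShapeQSpec
import Fermat.Agent.LT.T3.H830.ArchKit

/-!
# Row LT, tower T7, leaf T7.L2Q.1.H2b.4.L4 `PQ563.ArchProdQC563` (registry row 2971, helper100)

OFF-MAIN, never land.  Complete proof, nothing assumed.  ADDITIVE (new names only, suffix `100`).

    archProdQC100 (F) : PQ563.ArchProdQC563 F            (VERBATIM, unconditional)

Spec: `T7/H563/ProdShapeQSpec.lean` (helper563, sha256 110115a8f6c324c9).  Proof: the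
archimedean kit of helper830 (`T3/H830/ArchKit.lean`, `archProdN830`: wiring constant `cM > 0`,
convolution constant `e > 0`; the products `s · Φ₁ ⋆ Φ₂`, `t · F0₁ ⋆ F0₂`, `t · F1₁ ⋆ F1₂` of two
triples in the Abel relations `c`, `c'` are test functions and matched as soon as
`t e c c' = cM s`), used with `s = 1`, `c = c' = cM`, `t = lam = (e cM)⁻¹`.
The Abel constant of the leaf is `c = cM` (the constant for which the FACTORS are matched as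
well), `lam = 1 / (e cM) = cM / (e c²)`.
-/

set_option autoImplicit false

open AutomorphicForm IsDedekindDomain NumberField MeasureTheory

noncomputable section

namespace Fermat.Agent.LT.T7.H100

open Fermat.Agent.LT Fermat.Agent.LT.T7

/-- **LEAF PS.L4 = ARCH-PROD over `ℚ`**, VERBATIM. -/
theorem archProdQC100 (F : Type) [Field F] [NumberField F] : PQ563.ArchProdQC563 F := by
  intro _hF μr hμr μc hμc
  obtain ⟨cM, hcM, e, he, -, hP⟩ := T3.H830.archProdN830 μr μc hμr hμc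
  have hcM0 : (cM : ℂ) ≠ 0 := by exact_mod_cast hcM.ne'
  have he0 : (e : ℂ) ≠ 0 := by exact_mod_cast he.ne'
  have hlam0 : ((e : ℂ) * (cM : ℂ))⁻¹ ≠ 0 := inv_ne_zero (mul_ne_zero he0 hcM0)
  refine ⟨(cM : ℂ), ((e : ℂ) * (cM : ℂ))⁻¹, hcM0, hlam0, ?_⟩
  intro Φ₁ Φ₂ F0₁ F1₁ F0₂ F1₂ h₁ h₂
  obtain ⟨hΦ₁, hF0₁, hF1₁, hA₁⟩ := h₁
  obtain ⟨hΦ₂, hF0₂, hF1₂, hA₂⟩ := h₂
  have hrel : ((e : ℂ) * (cM : ℂ))⁻¹ * (e : ℂ) * (cM : ℂ) * (cM : ℂ) = (cM : ℂ) * 1 := by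
    field_simp
  have key : ∀ w : InfinitePlace F,
      T6.IsArchTestC (fun g => (1 : ℂ) * @T6.convInt _ _ (borel _) μc (Φ₁ w) (Φ₂ w) g) ∧
      T6.IsArchTestR 0
        (fun g => ((e : ℂ) * (cM : ℂ))⁻¹ * @T6.convInt _ _ (borel _) μr F0₁ F0₂ g) ∧
      T6.IsArchTestR (-1)
        (fun g => ((e : ℂ) * (cM : ℂ))⁻¹ * @T6.convInt _ _ (borel _) μr F1₁ F1₂ g) ∧
      T6.IsArchMatch μr μc
        (fun g => (1 : ℂ) * @T6.convInt _ _ (borel _) μc (Φ₁ w) (Φ₂ w) g)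
        (fun g => ((e : ℂ) * (cM : ℂ))⁻¹ * @T6.convInt _ _ (borel _) μr F0₁ F0₂ g
          + ((e : ℂ) * (cM : ℂ))⁻¹ * @T6.convInt _ _ (borel _) μr F1₁ F1₂ g) := by
    intro w
    obtain ⟨β₁, -, hN₁, h0₁, h1₁⟩ := hA₁ w
    obtain ⟨β₂, -, hN₂, h0₂, h1₂⟩ := hA₂ w
    exact hP (cM : ℂ) (cM : ℂ) 1 ((e : ℂ) * (cM : ℂ))⁻¹ one_ne_zero hrel (-1) (Or.inr rfl)
      (Φ₁ w) (Φ₂ w) F0₁ F0₂ F1₁ F1₂ β₁ β₂
      (hΦ₁ w) hF0₁ hF1₁ hN₁ h0₁ h1₁ (hΦ₂ w) hF0₂ hF1₂ hN₂ h0₂ h1₂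
  have hw : Nonempty (InfinitePlace F) := inferInstance
  obtain ⟨w₀⟩ := hw
  refine ⟨fun w => ?_, (key w₀).2.1, (key w₀).2.2.1, fun w => ?_⟩
  · have h := (key w).1
    simpa only [one_mul] using h
  · have h := (key w).2.2.2
    simpa only [one_mul] using h

end Fermat.Agent.LT.T7.H100

end
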